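import Mathlib.NumberTheory.ArithmeticFunction.Misc
import Mathlib.Data.Nat.Factorization.Basic
import Mathlib.Tactic

/-!
# Practical numbers

`n` is practical when every `m ≤ n` is a sum of distinct divisors of `n`. The criterion of Stewart
and Sierpiński: each prime `p ∣ n` is at most `σ + 1`, `σ` the sum of the divisors of the part of
`n` made of the primes below `p`. Hence `n k` is practical for practical `n` and `k ≤ 2 n`.
-/

set_option autoImplicit false

noncomputable section

namespace FA.Practical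

open Finset

/-- Every `m ≤ n` is a sum of distinct divisors of `n`. -/
def IsPractical (n : ℕ) : Prop := 0 < n ∧ ∀ m ≤ n, ∃ S ⊆ n.divisors, ∑ d ∈ S, d = m

/-- Every `m` up to the sum of the divisors is a sum of distinct divisors. -/
def IsComplete (n : ℕ) : Prop :=
  ∀ m ≤ ∑ d ∈ n.divisors, d, ∃ S ⊆ n.divisors, ∑ d ∈ S, d = m

/-- The part of `n` made of the primes below `p`. -/
def lowPart (n p : ℕ) : ℕ := ∏ q ∈ n.primeFactors.filter (· < p), q ^ n.factorization q

/-- The condition of Stewart and Sierpiński. -/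
def StewartCond (n : ℕ) : Prop :=
  ∀ p ∈ n.primeFactors, p ≤ (∑ d ∈ (lowPart n p).divisors, d) + 1

theorem prod_pow_factorization {n : ℕ} (hn : n ≠ 0) :
    ∏ q ∈ n.primeFactors, q ^ n.factorization q = n := by
  conv_rhs => rw [← Nat.prod_factorization_pow_eq_self hn]
  rw [Finsupp.prod, Nat.support_factorization]

theorem sum_divisors_pow {m p : ℕ} (hp : p.Prime) (hpm : ¬ p ∣ m) (e : ℕ) :
    ∑ d ∈ (m * p ^ e).divisors, d = (∑ d ∈ m.divisors, d) * ∑ i ∈ range (e + 1), p ^ i := by
  rw [Nat.Coprime.sum_divisors_mul (Nat.Coprime.pow_right e (hp.coprime_iff_not_dvd.2 hpm).symm),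
    Nat.sum_divisors_prime_pow hp]

/-- Multiplying by a power of a prime at most `σ + 1`. -/
theorem isComplete_mul_pow {m p : ℕ} (hm : 0 < m) (hp : p.Prime) (hpm : ¬ p ∣ m)
    (h : IsComplete m) (hle : p ≤ (∑ d ∈ m.divisors, d) + 1) : ∀ e, IsComplete (m * p ^ e) := by
  intro e
  induction e with
  | zero => simpa using h
  | succ e ih =>
    intro t ht
    obtain ⟨σ, hσ⟩ : ∃ σ, σ = ∑ d ∈ m.divisors, d := ⟨_, rfl⟩
    obtain ⟨G, hG⟩ : ∃ G, G = ∑ i ∈ range (e + 1), p ^ i := ⟨_, rfl⟩
    have hgap : ∀ j, p ^ (j + 1) ≤ σ * ∑ i ∈ range (j + 1), p ^ i + 1 := fun j => by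
      induction j with
      | zero => simpa [hσ] using hle
      | succ j ihj =>
        rw [sum_range_succ, mul_add, pow_succ' p (j + 1)]
        have := Nat.mul_le_mul_right (p ^ (j + 1)) (hσ ▸ hle : p ≤ σ + 1)
        rw [add_mul, one_mul] at this
        linarith
    rw [sum_divisors_pow hp hpm, sum_range_succ, mul_add, ← hσ, ← hG] at ht
    obtain ⟨r, hr⟩ : ∃ r, r = min σ (t / p ^ (e + 1)) := ⟨_, rfl⟩
    have hpe : 0 < p ^ (e + 1) := pow_pos hp.pos _
    have hrle : r * p ^ (e + 1) ≤ t := by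
      refine le_trans (Nat.mul_le_mul_right _ (hr ▸ min_le_right _ _)) ?_
      exact Nat.div_mul_le_self t _
    have hrest : t - r * p ^ (e + 1) ≤ σ * G := by
      rcases le_total σ (t / p ^ (e + 1)) with hc | hc
      · rw [hr, min_eq_left hc]
        omega
      · rw [hr, min_eq_right hc]
        have h1 := Nat.mod_lt t hpe
        have h2 := Nat.div_add_mod t (p ^ (e + 1))
        rw [mul_comm] at h2
        have h3 := hgap e
        rw [← hG] at h3
        omega
    obtain ⟨S, hS, hSs⟩ := ih (t - r * p ^ (e + 1)) (by rwa [sum_divisors_pow hp hpm, ← hσ, ← hG])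
    obtain ⟨R, hR, hRs⟩ := h r (hσ ▸ hr ▸ min_le_left _ _)
    have hdis : Disjoint S (R.image (· * p ^ (e + 1))) := disjoint_left.2 fun d hd hd' => by
      obtain ⟨c, -, rfl⟩ := mem_image.1 hd'
      have h1 : p ^ (e + 1) ∣ m * p ^ e :=
        (dvd_mul_left _ c).trans (Nat.dvd_of_mem_divisors (hS hd))
      have h2 := (Nat.Coprime.pow_left (e + 1)
        (hp.coprime_iff_not_dvd.2 hpm)).dvd_of_dvd_mul_left h1
      exact absurd ((Nat.pow_dvd_pow_iff_le_right hp.one_lt).1 h2) (by omega)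
    refine ⟨S ∪ R.image (· * p ^ (e + 1)), union_subset (fun d hd => ?_) (fun d hd => ?_), ?_⟩
    · exact Nat.mem_divisors.2 ⟨(Nat.dvd_of_mem_divisors (hS hd)).trans
        (Nat.mul_dvd_mul_left m (pow_dvd_pow p (Nat.le_succ e))),
        (Nat.mul_pos hm hpe).ne'⟩
    · obtain ⟨c, hc, rfl⟩ := mem_image.1 hd
      exact Nat.mem_divisors.2 ⟨Nat.mul_dvd_mul_right (Nat.dvd_of_mem_divisors (hR hc)) _,
        (Nat.mul_pos hm hpe).ne'⟩
    · rw [sum_union hdis, sum_image fun a _ b _ hab => Nat.eq_of_mul_eq_mul_right hpe hab,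
        ← sum_mul, hSs, hRs, Nat.sub_add_cancel hrle]

theorem isComplete_prod_pow (S : Finset ℕ) (e : ℕ → ℕ) (hS : ∀ p ∈ S, p.Prime)
    (h : ∀ p ∈ S, p ≤ (∑ d ∈ (∏ q ∈ S.filter (· < p), q ^ e q).divisors, d) + 1) :
    IsComplete (∏ p ∈ S, p ^ e p) := by
  induction S using Finset.induction_on_max with
  | empty =>
    intro m hm
    rw [prod_empty, Nat.divisors_one, sum_singleton] at hm
    interval_cases m
    · exact ⟨∅, empty_subset _, sum_empty⟩
    · exact ⟨{1}, by simp, sum_singleton _ _⟩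
  | insert a s ha ih =>
    have hns : a ∉ s := fun h' => lt_irrefl a (ha a h')
    have hlow : ∀ p, p ≤ a → (insert a s).filter (· < p) = s.filter (· < p) := fun p hp => by
      rw [filter_insert, if_neg (not_lt.2 hp)]
    have hsp : ∀ p ∈ s, p.Prime := fun p hp => hS p (mem_insert_of_mem hp)
    rw [prod_insert hns, mul_comm]
    refine isComplete_mul_pow (prod_pos fun p hp => pow_pos (hsp p hp).pos _)
      (hS a (mem_insert_self a s)) (fun hd => ?_) (ih hsp fun p hp => ?_) ?_ _
    · obtain ⟨q, hq, hd⟩ := ((hS a (mem_insert_self a s)).prime.dvd_finsetProd_iff _).1 hd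
      exact (ha q hq).ne ((Nat.prime_dvd_prime_iff_eq (hS a (mem_insert_self a s)) (hsp q hq)).1
        ((hS a (mem_insert_self a s)).dvd_of_dvd_pow hd)).symm
    · have := h p (mem_insert_of_mem hp)
      rwa [hlow p (ha p hp).le] at this
    · have := h a (mem_insert_self a s)
      rwa [hlow a le_rfl, filter_true_of_mem fun q hq => ha q hq] at this

theorem StewartCond.isComplete {n : ℕ} (hn : 0 < n) (h : StewartCond n) : IsComplete n := by
  have := isComplete_prod_pow n.primeFactors (fun q => n.factorization q)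
    (fun p hp => Nat.prime_of_mem_primeFactors hp) h
  rwa [prod_pow_factorization hn.ne'] at this

theorem le_sum_divisors {n : ℕ} (hn : 0 < n) : n ≤ ∑ d ∈ n.divisors, d :=
  single_le_sum (f := fun d : ℕ => d) (fun _ _ => Nat.zero_le _) (Nat.mem_divisors_self n hn.ne')

theorem dvd_lowPart {d n p : ℕ} (hn : n ≠ 0) (hd : d ∣ n) (h : ∀ q ∈ d.primeFactors, q < p) :
    d ∣ lowPart n p := by
  have hd0 : d ≠ 0 := ne_zero_of_dvd_ne_zero hn hd
  conv_lhs => rw [← prod_pow_factorization hd0]
  refine (prod_dvd_prod_of_dvd _ _ fun q _ =>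
    pow_dvd_pow q ((Nat.factorization_le_iff_dvd hd0 hn).2 hd q)).trans ?_
  exact prod_dvd_prod_of_subset _ _ _ fun q hq => mem_filter.2
    ⟨Nat.primeFactors_mono hd hn hq, h q hq⟩

theorem lowPart_dvd {n : ℕ} (hn : n ≠ 0) (p : ℕ) : lowPart n p ∣ n := by
  conv_rhs => rw [← prod_pow_factorization hn]
  exact prod_dvd_prod_of_subset _ _ _ (filter_subset _ _)

theorem lowPart_pos (n p : ℕ) : 0 < lowPart n p :=
  prod_pos fun _ hq => pow_pos (Nat.prime_of_mem_primeFactors (mem_filter.1 hq).1).pos _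

theorem lt_of_prime_dvd_lowPart {n p q : ℕ} (hq : q.Prime) (h : q ∣ lowPart n p) : q < p := by
  obtain ⟨r, hr, hd⟩ := (hq.prime.dvd_finsetProd_iff _).1 h
  obtain ⟨hr, hrp⟩ := mem_filter.1 hr
  rwa [(Nat.prime_dvd_prime_iff_eq hq (Nat.prime_of_mem_primeFactors hr)).1 (hq.dvd_of_dvd_pow hd)]

theorem IsPractical.stewartCond {n : ℕ} (h : IsPractical n) : StewartCond n := fun p hp => by
  by_contra hc
  rw [not_le] at hc
  obtain ⟨hpp, hd, hn⟩ := Nat.mem_primeFactors.1 hp
  obtain ⟨S, hS, hsum⟩ := h.2 ((∑ d ∈ (lowPart n p).divisors, d) + 1)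
    (hc.le.trans (Nat.le_of_dvd h.1 hd))
  have hsub : S ⊆ (lowPart n p).divisors := fun d hd' => Nat.mem_divisors.2
    ⟨dvd_lowPart hn (Nat.dvd_of_mem_divisors (hS hd')) fun q hq =>
      lt_of_le_of_lt ((Nat.le_of_dvd (Nat.pos_of_mem_divisors (hS hd'))
        (Nat.dvd_of_mem_primeFactors hq)).trans
        (single_le_sum (f := fun d : ℕ => d) (fun _ _ => Nat.zero_le _) hd')) (hsum ▸ hc),
      (lowPart_pos n p).ne'⟩
  have := sum_le_sum_of_subset (f := fun d : ℕ => d) hsub
  omega

/-- **The criterion of Stewart and Sierpiński.** -/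
theorem isPractical_iff {n : ℕ} (hn : 0 < n) : IsPractical n ↔ StewartCond n :=
  ⟨fun h => h.stewartCond,
    fun h => ⟨hn, fun m hm => h.isComplete hn m (hm.trans (le_sum_divisors hn))⟩⟩

theorem IsPractical.isComplete {n : ℕ} (h : IsPractical n) : IsComplete n :=
  h.stewartCond.isComplete h.1

theorem isPractical_one : IsPractical 1 :=
  (isPractical_iff one_pos).2 fun p hp => by simp at hp

/-- **Multiplication.** -/
theorem IsPractical.mul {n k : ℕ} (h : IsPractical n) (hk0 : 0 < k)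
    (hk : k ≤ (∑ d ∈ n.divisors, d) + 1) : IsPractical (n * k) := by
  have hn := h.1
  have hmono : ∀ p, ∑ d ∈ (lowPart n p).divisors, d ≤ ∑ d ∈ (lowPart (n * k) p).divisors, d :=
    fun p => sum_le_sum_of_subset (Nat.divisors_subset_of_dvd (lowPart_pos _ p).ne'
      (dvd_lowPart (Nat.mul_pos hn hk0).ne' ((lowPart_dvd hn.ne' p).trans (dvd_mul_right n k))
        fun q hq => lt_of_prime_dvd_lowPart (Nat.prime_of_mem_primeFactors hq)
          (Nat.dvd_of_mem_primeFactors hq)))
  refine (isPractical_iff (Nat.mul_pos hn hk0)).2 fun p hp => ?_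
  refine le_trans ?_ (Nat.add_le_add_right (hmono p) 1)
  obtain ⟨hpp, hd, -⟩ := Nat.mem_primeFactors.1 hp
  by_cases hpn : p ∈ n.primeFactors
  · exact h.stewartCond p hpn
  have hpk : p ≤ k := Nat.le_of_dvd hk0 ((hpp.dvd_mul.1 hd).resolve_left fun h' =>
    hpn (Nat.mem_primeFactors.2 ⟨hpp, h', hn.ne'⟩))
  by_cases hbig : (n.primeFactors.filter (p < ·)).Nonempty
  · obtain ⟨q, hq⟩ : ∃ q, q = (n.primeFactors.filter (p < ·)).min' hbig := ⟨_, rfl⟩
    obtain ⟨hqn, hpq⟩ := mem_filter.1 (hq ▸ min'_mem _ hbig)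
    have e : lowPart n q = lowPart n p := by
      refine prod_congr (filter_congr fun r hr => ⟨fun hrq => ?_, fun hrp => hrp.trans hpq⟩)
        fun _ _ => rfl
      by_contra hc
      rcases eq_or_lt_of_le (not_lt.1 hc) with rfl | hlt
      · exact hpn hr
      · exact absurd (min'_le _ r (mem_filter.2 ⟨hr, hlt⟩)) (not_le.2 (hq ▸ hrq))
    have h1 := h.stewartCond q hqn
    rw [e] at h1
    omega
  · have e : lowPart n p = n := by
      conv_rhs => rw [← prod_pow_factorization hn.ne']
      refine prod_congr (filter_true_of_mem fun r hr => ?_) fun _ _ => rfl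
      rcases lt_trichotomy r p with h1 | h1 | h1
      · exact h1
      · exact absurd (h1 ▸ hr) hpn
      · exact absurd ⟨r, mem_filter.2 ⟨hr, h1⟩⟩ hbig
    rw [e]
    omega

/-- A practical number is at most half of `σ + 1`. -/
theorem IsPractical.two_mul_le {n : ℕ} (h : IsPractical n) :
    2 * n ≤ (∑ d ∈ n.divisors, d) + 1 := by
  obtain ⟨S, hS, hsum⟩ := h.2 (n - 1) (Nat.sub_le n 1)
  have hns : n ∉ S := fun hc => by
    have := single_le_sum (f := fun d : ℕ => d) (fun _ _ => Nat.zero_le _) hc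
    have := h.1
    omega
  have := sum_le_sum_of_subset (f := fun d : ℕ => d)
    (insert_subset (Nat.mem_divisors_self n h.1.ne') hS : insert n S ⊆ n.divisors)
  rw [sum_insert hns, hsum] at this
  omega

/-- `n k` is practical for `k ≤ 2 n`. -/
theorem IsPractical.mul_le {n k : ℕ} (h : IsPractical n) (hk0 : 0 < k) (hk : k ≤ 2 * n) :
    IsPractical (n * k) :=
  h.mul hk0 (hk.trans h.two_mul_le)

theorem isPractical_two_pow (a : ℕ) : IsPractical (2 ^ a) := by
  induction a with
  | zero => simpa using isPractical_one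
  | succ a ih =>
    rw [pow_succ]
    exact ih.mul_le two_pos (Nat.le_mul_of_pos_right 2 ih.1)

end FA.Practical

end
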