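import Fermat.Agent.Practical.Basic
import Fermat.Agent.PoissonDirichlet.DonnellyGrimmett
import Fermat.Agent.ErdosKac.Turan

/-!
# Practical numbers have density zero

A practical `n` has at least `log n / log 2` divisors. Almost every `n ≤ N` has `ω n` near
`log log N` and few repeated prime factors, so at most `(log N) ^ (1 - c)` divisors (Erdős).
-/

set_option autoImplicit false

noncomputable section

namespace FA.Practical

open Finset Filter
open FA.ErdosKac (loglog)
open scoped Topology

theorem IsPractical.le_two_pow {n : ℕ} (h : IsPractical n) : n ≤ 2 ^ n.divisors.card := by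
  classical
  have hch : ∀ m ∈ Icc 1 n, ∃ S ∈ n.divisors.powerset, ∑ d ∈ S, d = m := fun m hm => by
    obtain ⟨S, hS, hs⟩ := h.2 m (mem_Icc.1 hm).2
    exact ⟨S, mem_powerset.2 hS, hs⟩
  choose! S hS hs using hch
  have := card_le_card_of_injOn S (fun m hm => hS m hm)
    (fun a ha b hb hab => by rw [← hs a ha, ← hs b hb, hab])
  rwa [Nat.card_Icc, Nat.add_sub_cancel, card_powerset] at this

theorem card_divisors_le_two_pow {n : ℕ} (hn : n ≠ 0) :
    n.divisors.card ≤ 2 ^ ∑ p ∈ n.primeFactors, n.factorization p := by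
  rw [Nat.card_divisors hn, ← prod_pow_eq_pow_sum]
  exact prod_le_prod' fun p _ => Nat.succ_le_of_lt Nat.lt_two_pow_self

/-- The excess of prime factors, by the excess of their logarithms. -/
theorem excess_mul_log_two_le {n : ℕ} :
    ((∑ p ∈ n.primeFactors, n.factorization p : ℕ) - (n.primeFactors.card : ℝ)) * Real.log 2 ≤
      Real.log n - ∑ p ∈ n.primeFactors, Real.log p := by
  rw [PoissonDirichlet.log_eq_sum_factorization n, ← sum_sub_distrib, Nat.cast_sum,
    card_eq_sum_ones, Nat.cast_sum, ← sum_sub_distrib, sum_mul]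
  refine sum_le_sum fun p hp => ?_
  obtain ⟨hpp, hd, hn⟩ := Nat.mem_primeFactors.1 hp
  have h1 : (1 : ℝ) ≤ n.factorization p := Nat.one_le_cast.2 (hpp.factorization_pos_of_dvd hn hd)
  have h2 : Real.log 2 ≤ Real.log p := Real.log_le_log two_pos (Nat.ofNat_le_cast.2 hpp.two_le)
  rw [Nat.cast_one, show (n.factorization p : ℝ) * Real.log p - Real.log p =
    ((n.factorization p : ℝ) - 1) * Real.log p by ring]
  exact mul_le_mul_of_nonneg_left h2 (sub_nonneg.2 h1)

open scoped Classical in
/-- **Erdős**: practical numbers have density zero. -/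
theorem tendsto_practical_density : Tendsto (fun N : ℕ =>
    (((Icc 1 N).filter IsPractical).card : ℝ) / N) atTop (𝓝 0) := by
  obtain ⟨C, hC, hexc⟩ := PoissonDirichlet.exists_excess_le
  have hl2 : 0 < Real.log 2 := Real.log_pos one_lt_two
  have hll : Tendsto loglog atTop atTop :=
    Real.tendsto_log_atTop.comp PoissonDirichlet.tendsto_log_nat
  have hl21 : Real.log 2 * (7 / 5) < 99 / 100 := by linarith [Real.log_two_lt_d9]
  have hbig : ∀ᶠ N : ℕ in atTop, (Icc 1 N).filter IsPractical ⊆ Icc 1 (Nat.sqrt N) ∪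
      ((Icc 1 N).filter fun n : ℕ => 1 / 5 * loglog N ≤ |(n.primeFactors.card : ℝ) - loglog N|) ∪
      ((Icc 1 N).filter fun n : ℕ =>
        1 / 5 * loglog N * Real.log 2 ≤ Real.log n - ∑ p ∈ n.primeFactors, Real.log p) := by
    filter_upwards [hll.eventually_gt_atTop (100 * Real.log 2), eventually_ge_atTop 3]
      with N hN hN3 n hn
    rw [mem_filter, mem_Icc] at hn
    obtain ⟨⟨hn1, hnN⟩, hpr⟩ := hn
    by_contra hc
    rw [mem_union, mem_union, mem_filter, mem_filter, mem_Icc, mem_Icc] at hc
    push Not at hc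
    obtain ⟨⟨hsq, hw⟩, hex⟩ := hc
    have hw' := (abs_lt.1 (hw ⟨hn1, hnN⟩)).2
    have hex' := hex ⟨hn1, hnN⟩
    have hΩ : ((∑ p ∈ n.primeFactors, n.factorization p : ℕ) : ℝ) ≤ 7 / 5 * loglog N := by
      have := excess_mul_log_two_le.trans_lt hex'
      have := lt_of_mul_lt_mul_right this hl2.le
      linarith
    have hL : 0 < Real.log N := Real.log_pos (Nat.one_lt_cast.2 (by omega))
    have hn0 : (0 : ℝ) < n := Nat.cast_pos.2 hn1
    have hhalf : Real.log N ≤ 2 * Real.log n := by
      rw [show (2 : ℝ) * Real.log n = ((2 : ℕ) : ℝ) * Real.log n by norm_num, ← Real.log_pow]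
      refine Real.log_le_log (Nat.cast_pos.2 (by omega)) ?_
      exact_mod_cast (Nat.sqrt_lt'.1 (hsq hn1)).le
    have h1 : Real.log n ≤ (n.divisors.card : ℝ) * Real.log 2 := by
      rw [← Real.log_pow]
      exact Real.log_le_log hn0 (by exact_mod_cast hpr.le_two_pow)
    have h2 : (n.divisors.card : ℝ) ≤ Real.exp (Real.log 2 * (7 / 5 * loglog N)) := by
      refine le_trans (Nat.cast_le.2 (card_divisors_le_two_pow (by omega))) ?_
      rw [Nat.cast_pow, Nat.cast_ofNat, ← Real.rpow_natCast, Real.rpow_def_of_pos two_pos]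
      exact Real.exp_le_exp.2 (mul_le_mul_of_nonneg_left hΩ hl2.le)
    have h3 : Real.log N ≤ Real.exp (Real.log 2 * (7 / 5 * loglog N)) * (2 * Real.log 2) := by
      have := mul_le_mul_of_nonneg_right h2 hl2.le
      linarith
    have h4 := Real.log_le_log hL h3
    rw [Real.log_mul (Real.exp_pos _).ne' (by positivity), Real.log_exp,
      show Real.log (Real.log N) = loglog N from rfl] at h4
    have h5 : Real.log (2 * Real.log 2) ≤ Real.log 2 := Real.log_le_log (by positivity)
      (by linarith [Real.log_two_lt_d9])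
    have h6 := mul_le_mul_of_nonneg_right hl21.le (show 0 ≤ loglog N by linarith)
    linarith
  have h0 : Tendsto (fun N : ℕ => (Nat.sqrt N : ℝ) / N) atTop (𝓝 0) := by
    refine squeeze_zero (fun N => by positivity) (fun N => ?_)
      (tendsto_inv_atTop_zero.comp (Real.tendsto_sqrt_atTop.comp tendsto_natCast_atTop_atTop))
    simp only [Function.comp_apply]
    refine (div_le_div_of_nonneg_right Real.nat_sqrt_le_real_sqrt (Nat.cast_nonneg N)).trans_eq ?_
    rw [Real.sqrt_div_self]
  have h2 : Tendsto (fun N : ℕ => 5 * C / Real.log 2 / loglog N) atTop (𝓝 0) :=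
    tendsto_const_nhds.div_atTop hll
  have hsum := (h0.add (ErdosKac.tendsto_normal_order (show (0 : ℝ) < 1 / 5 by norm_num))).add h2
  rw [add_zero, add_zero] at hsum
  refine squeeze_zero' (Eventually.of_forall fun N => by positivity) ?_ hsum
  filter_upwards [hbig, hll.eventually_gt_atTop 0, eventually_ge_atTop 1] with N hN hL hN1
  refine (div_le_div_of_nonneg_right (Nat.cast_le.2 ((card_le_card hN).trans
    ((card_union_le _ _).trans (add_le_add (card_union_le _ _) le_rfl)))) (Nat.cast_nonneg N)).trans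
    ?_
  rw [Nat.cast_add, Nat.cast_add, Nat.card_Icc, Nat.add_sub_cancel, add_div, add_div]
  refine add_le_add le_rfl ?_
  obtain ⟨T, hT⟩ : ∃ T, T = (Icc 1 N).filter fun n : ℕ =>
      1 / 5 * loglog N * Real.log 2 ≤ Real.log n - ∑ p ∈ n.primeFactors, Real.log p := ⟨_, rfl⟩
  have h := (card_nsmul_le_sum T _ (1 / 5 * loglog N * Real.log 2) fun n hn => by
    rw [hT, mem_filter] at hn
    exact hn.2).trans ((sum_le_sum_of_subset_of_nonneg (hT ▸ filter_subset _ _) fun n _ _ =>
      sub_nonneg.2 (PoissonDirichlet.sum_log_primeFactors_le n)).trans (hexc N))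
  rw [nsmul_eq_mul] at h
  rw [← hT, div_le_div_iff₀ (Nat.cast_pos.2 hN1) hL, div_mul_eq_mul_div, le_div_iff₀ hl2]
  linarith

end FA.Practical

end
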