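import Fermat.Agent.Practical.Basic

/-!
# Sums of two practical numbers

Twin practical numbers `m`, `m + 2` give twins near `j m (m + 2) / 2`, `j = 1, 2, 3`, so there are
some between `X` and `2 X + 2`; and every even number near `(m + 2) ^ 2` is a sum of a practical
multiple of `m` and one of `m + 2` (Melfi).
-/

set_option autoImplicit false

noncomputable section

namespace FA.Practical

open Finset

/-- `m` and `m + 2` are practical and `m` is even. -/
def IsTwin (m : ℕ) : Prop := 2 ∣ m ∧ IsPractical m ∧ IsPractical (m + 2)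

theorem IsTwin.child {u j : ℕ} (h : IsTwin (2 * u)) (hu : 4 ≤ u) (hj : j ≤ 3) :
    IsTwin (2 * u + j * (2 * u * (u + 1))) := by
  refine ⟨⟨u + j * (u * (u + 1)), by ring⟩, ?_, ?_⟩
  · rw [show 2 * u + j * (2 * u * (u + 1)) = 2 * u * (1 + j * (u + 1)) by ring]
    exact h.2.1.mul_le (Nat.add_pos_left one_pos _)
      (by have := Nat.mul_le_mul_right (u + 1) hj; omega)
  · rw [show 2 * u + j * (2 * u * (u + 1)) + 2 = (2 * u + 2) * (1 + j * u) by ring]
    exact h.2.2.mul_le (Nat.add_pos_left one_pos _)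
      (by have := Nat.mul_le_mul_right u hj; omega)

theorem isPractical_small {n : ℕ}
    (hn : n ∈ ({1, 2, 4, 6, 8, 12, 16, 18, 24, 30, 32, 36, 42, 48, 54, 56, 60, 66, 72, 78, 80, 88,
      90} : Finset ℕ)) : IsPractical n := by
  have h2 := isPractical_two_pow
  have h6 : IsPractical 6 := (h2 1).mul_le (k := 3) (by norm_num) (by norm_num)
  have h12 : IsPractical 12 := h6.mul_le (k := 2) (by norm_num) (by norm_num)
  have h18 : IsPractical 18 := h6.mul_le (k := 3) (by norm_num) (by norm_num)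
  have h24 : IsPractical 24 := h12.mul_le (k := 2) (by norm_num) (by norm_num)
  simp only [mem_insert, mem_singleton] at hn
  rcases hn with rfl | rfl | rfl | rfl | rfl | rfl | rfl | rfl | rfl | rfl | rfl | rfl | rfl | rfl |
    rfl | rfl | rfl | rfl | rfl | rfl | rfl | rfl | rfl
  · exact h2 0
  · exact h2 1
  · exact h2 2
  · exact h6
  · exact h2 3
  · exact h12
  · exact h2 4
  · exact h18
  · exact h24
  · exact h6.mul_le (k := 5) (by norm_num) (by norm_num)
  · exact h2 5
  · exact h18.mul_le (k := 2) (by norm_num) (by norm_num)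
  · exact h6.mul_le (k := 7) (by norm_num) (by norm_num)
  · exact h24.mul_le (k := 2) (by norm_num) (by norm_num)
  · exact h18.mul_le (k := 3) (by norm_num) (by norm_num)
  · exact (h2 3).mul_le (k := 7) (by norm_num) (by norm_num)
  · exact h12.mul_le (k := 5) (by norm_num) (by norm_num)
  · exact h6.mul_le (k := 11) (by norm_num) (by norm_num)
  · exact h24.mul_le (k := 3) (by norm_num) (by norm_num)
  · exact h6.mul (k := 13) (by norm_num) (by decide)
  · exact (h2 4).mul_le (k := 5) (by norm_num) (by norm_num)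
  · exact (h2 3).mul_le (k := 11) (by norm_num) (by norm_num)
  · exact h18.mul_le (k := 5) (by norm_num) (by norm_num)

/-- **A twin between `X` and `2 X + 2`.** -/
theorem exists_twin : ∀ X, 7 ≤ X → ∃ m, X < m ∧ m ≤ 2 * X + 2 ∧ IsTwin m := by
  intro X
  induction X using Nat.strong_induction_on with
  | _ X ih =>
    intro hX
    have small : ∀ m, m ∈ ({16, 30, 54, 88} : Finset ℕ) → IsTwin m := fun m hm => by
      simp only [mem_insert, mem_singleton] at hm
      rcases hm with rfl | rfl | rfl | rfl <;>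
        exact ⟨by norm_num, isPractical_small (by decide), isPractical_small (by decide)⟩
    rcases lt_or_ge X 16 with h | h16
    · exact ⟨16, h, by omega, small _ (by decide)⟩
    rcases lt_or_ge X 30 with h | h30
    · exact ⟨30, h, by omega, small _ (by decide)⟩
    rcases lt_or_ge X 54 with h | h54
    · exact ⟨54, h, by omega, small _ (by decide)⟩
    rcases lt_or_ge X 88 with h | h88
    · exact ⟨88, h, by omega, small _ (by decide)⟩
    obtain ⟨s, hs⟩ : ∃ s, s = Nat.sqrt (X + 2) := ⟨_, rfl⟩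
    have hs9 : 9 ≤ s := hs ▸ Nat.le_sqrt.2 (by omega)
    have hs1 : s * s ≤ X + 2 := hs ▸ Nat.sqrt_le _
    have hs2 : X + 2 < (s + 1) * (s + 1) := hs ▸ Nat.lt_succ_sqrt _
    have hs4 : 9 * s ≤ s * s := Nat.mul_le_mul_right s hs9
    obtain ⟨m, hm1, hm2, hm⟩ := ih (s - 2) (by omega) (by omega)
    obtain ⟨u, rfl⟩ := hm.1
    obtain ⟨L, hL⟩ : ∃ L, L = 2 * u * (u + 1) := ⟨_, rfl⟩
    have h1 : 2 * u + L ≤ 2 * X + 2 := by
      have := Nat.mul_le_mul (show u + 1 ≤ s by omega) (show u + 1 ≤ s by omega)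
      linarith
    have h3 : X < 2 * u + 3 * L := by
      have h5 := Nat.mul_le_mul (show s + 1 ≤ 2 * u + 2 by omega) (show s + 1 ≤ 2 * u + 2 by omega)
      have h6 : 2 ≤ u * u := by
        have := Nat.mul_le_mul (show 4 ≤ u by omega) (show 4 ≤ u by omega)
        omega
      linarith
    have hc : ∀ j, j ≤ 3 → IsTwin (2 * u + j * L) := fun j hj => hL ▸ hm.child (by omega) hj
    rcases lt_or_ge X (2 * u + L) with h | h
    · exact ⟨_, h, h1, by simpa using hc 1 (by norm_num)⟩
    rcases lt_or_ge X (2 * u + 2 * L) with h' | h'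
    · exact ⟨_, h', by omega, hc 2 (by norm_num)⟩
    · exact ⟨_, h3, by omega, hc 3 le_rfl⟩

/-- **Melfi.** -/
theorem exists_two_practical {h : ℕ} (hh : 0 < h) :
    ∃ a b, IsPractical a ∧ IsPractical b ∧ a + b = 2 * h := by
  rcases lt_or_ge h 81 with hsmall | hbig
  · obtain ⟨P, hP⟩ : ∃ P : Finset ℕ, P = {1, 2, 4, 6, 8, 12, 16, 18, 24, 30, 32, 36, 42, 48, 54, 56,
      60, 66, 72, 78, 80, 88, 90} := ⟨_, rfl⟩
    have key : ∀ h ∈ Icc 1 80, ∃ a ∈ P, a < 2 * h ∧ 2 * h - a ∈ P := by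
      rw [hP]
      decide
    obtain ⟨a, ha, hlt, hb⟩ := key h (mem_Icc.2 ⟨hh, Nat.lt_succ_iff.1 hsmall⟩)
    exact ⟨a, 2 * h - a, isPractical_small (hP ▸ ha), isPractical_small (hP ▸ hb),
      Nat.add_sub_cancel' hlt.le⟩
  · obtain ⟨s, hs⟩ : ∃ s, s = Nat.sqrt h := ⟨_, rfl⟩
    have hs9 : 9 ≤ s := hs ▸ Nat.le_sqrt.2 (by omega)
    have hs1 : s * s ≤ h := hs ▸ Nat.sqrt_le _
    have hs2 : h < (s + 1) * (s + 1) := hs ▸ Nat.lt_succ_sqrt _
    obtain ⟨m, hm1, hm2, hm⟩ := exists_twin (s - 2) (by omega)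
    obtain ⟨u, rfl⟩ := hm.1
    have hlo := Nat.mul_le_mul (show u + 1 ≤ s by omega) (show u + 1 ≤ s by omega)
    have hhi := Nat.mul_le_mul (show s + 1 ≤ 2 * u + 2 by omega) (show s + 1 ≤ 2 * u + 2 by omega)
    obtain ⟨a, ha⟩ : ∃ a, a = u + 1 - h % (u + 1) := ⟨_, rfl⟩
    have hmod := Nat.mod_lt h (show 0 < u + 1 by omega)
    have hau : a * u ≤ (u + 1) * u := Nat.mul_le_mul_right u (by omega)
    have hah : a * u ≤ h := by linarith
    obtain ⟨q, hq⟩ : ∃ q, q = h / (u + 1) := ⟨_, rfl⟩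
    have hdiv : (u + 1) * q + h % (u + 1) = h := hq ▸ Nat.div_add_mod h (u + 1)
    have hqu : u + 1 ≤ q := hq ▸ (Nat.le_div_iff_mul_le (by omega)).2 (by linarith)
    obtain ⟨b, hb⟩ : ∃ b, b = q + 1 - a := ⟨_, rfl⟩
    have hab : a * u + b * (u + 1) = h := by
      have e1 : (a : ℤ) = u + 1 - ((h % (u + 1) : ℕ) : ℤ) := by omega
      have e2 : (b : ℤ) = q + 1 - a := by omega
      have e3 : ((u : ℤ) + 1) * q + ((h % (u + 1) : ℕ) : ℤ) = h := by exact_mod_cast hdiv
      have : (a : ℤ) * u + b * (u + 1) = h := by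
        rw [e2]
        linear_combination e3 - e1
      exact_mod_cast this
    have hb0 : 0 < b := by omega
    have hb4 : b ≤ 2 * (2 * u + 2) := by
      by_contra hc
      have h1 := Nat.mul_le_mul_left (u + 1) (show 4 * (u + 1) + 1 ≤ q by omega)
      linarith [Nat.zero_le (h % (u + 1))]
    exact ⟨2 * u * a, (2 * u + 2) * b, hm.2.1.mul_le (by omega) (by omega),
      hm.2.2.mul_le hb0 hb4, by linarith⟩

end FA.Practical

end
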