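import Fermat.Agent.Practical.Basic

/-!
# Infinitely many triples of practical numbers

With `E = 70 * 3 ^ k` and `z = 3 ^ E`, both `2 (z ± 1)` are practical: passing to `3 E` multiplies
by `z ^ 2 ∓ z + 1`, which splits into cyclotomic factors of degrees `2`, `8`, `12`, `48` in
`w = 9 ^ (3 ^ k)`, each at most twice the product so far. So `n - 2`, `n`, `n + 2` are practical
for `n = 2 z` (Melfi).
-/

set_option autoImplicit false

noncomputable section

namespace FA.Practical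

/-- The cyclotomic polynomial of order `30`. -/
def phiThirty (x : ℤ) : ℤ :=
  x ^ 8 + x ^ 7 - x ^ 5 - x ^ 4 - x ^ 3 + x + 1

/-- The cyclotomic polynomial of order `42`. -/
def phiFortyTwo (x : ℤ) : ℤ :=
  x ^ 12 + x ^ 11 - x ^ 9 - x ^ 8 + x ^ 6 - x ^ 4 - x ^ 3 + x + 1

/-- The cyclotomic polynomial of order `210`. -/
def phiTwoTen (x : ℤ) : ℤ :=
  x ^ 48 - x ^ 47 + x ^ 46 + x ^ 43 - x ^ 42 + 2 * x ^ 41 - x ^ 40 + x ^ 39 + x ^ 36 - x ^ 35
    + x ^ 34 - x ^ 33 + x ^ 32 - x ^ 31 - x ^ 28 - x ^ 26 - x ^ 24 - x ^ 22 - x ^ 20 - x ^ 17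
    + x ^ 16 - x ^ 15 + x ^ 14 - x ^ 13 + x ^ 12 + x ^ 9 - x ^ 8 + 2 * x ^ 7 - x ^ 6 + x ^ 5
    + x ^ 2 - x + 1

theorem cyclotomic_split (x : ℤ) :
    x ^ 70 - x ^ 35 + 1 = (x ^ 2 - x + 1) * phiThirty x * phiFortyTwo x * phiTwoTen x := by
  simp only [phiThirty, phiFortyTwo, phiTwoTen]
  ring

theorem IsPractical.mul_four {N Z : ℕ} (h : IsPractical N) {a b c d : ℤ} (ha : 0 < a)
    (hb : 0 < b) (hc : 0 < c) (hZ0 : 0 < Z) (hZ : a * b * c * d = Z) (ha' : a ≤ 2 * N)
    (hb' : b ≤ 2 * N) (hc' : c ≤ 2 * N) (hZ' : (Z : ℤ) ≤ 2 * N * (a * b * c) ^ 2) :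
    IsPractical (N * Z) := by
  have hd : 0 < d := by
    have : 0 < a * b * c * d := hZ ▸ Nat.cast_pos.2 hZ0
    exact pos_of_mul_pos_right this (by positivity)
  have hd' : d ≤ 2 * N * (a * b * c) := by
    refine le_of_mul_le_mul_left ?_ (show 0 < a * b * c by positivity)
    rw [hZ]
    exact hZ'.trans_eq (by ring)
  lift a to ℕ using ha.le
  lift b to ℕ using hb.le
  lift c to ℕ using hc.le
  lift d to ℕ using hd.le
  norm_cast at ha hb hc hd ha' hb' hc' hd' hZ
  have h1 := h.mul_le ha ha'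
  have h2 := h1.mul_le hb (hb'.trans (Nat.mul_le_mul_left 2 (Nat.le_mul_of_pos_right N ha)))
  have h3 := h2.mul_le hc (hc'.trans (Nat.mul_le_mul_left 2
    ((Nat.le_mul_of_pos_right N ha).trans (Nat.le_mul_of_pos_right _ hb))))
  have h4 := h3.mul_le hd (hd'.trans_eq (by ring))
  rwa [show N * a * b * c * d = N * Z by rw [← hZ]; ring] at h4

theorem factor_bounds {w x : ℤ} (hw : 9 ≤ w) (hx : x = w ∨ x = -w) :
    (w ≤ x ^ 2 - x + 1 ∧ x ^ 2 - x + 1 ≤ 2 * w ^ 12) ∧
      (w ^ 7 ≤ phiThirty x ∧ phiThirty x ≤ 2 * w ^ 12) ∧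
      (w ^ 11 ≤ phiFortyTwo x ∧ phiFortyTwo x ≤ 2 * w ^ 12) := by
  have h : ∀ i, 9 * w ^ i ≤ w ^ (i + 1) := fun i => by
    rw [pow_succ']
    exact mul_le_mul_of_nonneg_right hw (pow_nonneg (by linarith) i)
  have h0 := h 0; have h1 := h 1; have h2 := h 2; have h3 := h 3; have h4 := h 4; have h5 := h 5
  have h6 := h 6; have h7 := h 7; have h8 := h 8; have h9 := h 9; have h10 := h 10
  have h11 := h 11
  simp only [pow_zero, mul_one, zero_add, pow_one, Nat.reduceAdd] at h0 h1 h2 h3 h4 h5 h6 h7 h8 h9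
  simp only [Nat.reduceAdd] at h10 h11
  rcases hx with rfl | rfl <;>
    simp only [phiThirty, phiFortyTwo] <;> ring_nf <;>
    refine ⟨⟨?_, ?_⟩, ⟨?_, ?_⟩, ?_, ?_⟩ <;> linarith

theorem step_exponent {w : ℕ} (hw : 9 ≤ w) {N Z : ℕ} (h : IsPractical N) (hN : w ^ 35 ≤ N)
    {x : ℤ} (hx : x = w ∨ x = -w) (hZ : (Z : ℤ) = x ^ 70 - x ^ 35 + 1)
    (hZ' : Z ≤ 2 * (w ^ 35) ^ 2) : IsPractical (N * Z) := by
  obtain ⟨⟨a1, a2⟩, ⟨b1, b2⟩, c1, c2⟩ := factor_bounds (show (9 : ℤ) ≤ w by exact_mod_cast hw) hx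
  have hw0 : (0 : ℤ) < w := by exact_mod_cast Nat.lt_of_lt_of_le (by norm_num) hw
  have hw1 : (1 : ℤ) ≤ w := hw0
  have hN' : (w : ℤ) ^ 35 ≤ N := by exact_mod_cast hN
  have h12 : (w : ℤ) ^ 12 ≤ w ^ 35 := pow_le_pow_right₀ hw1 (by norm_num)
  have hprod : (w : ℤ) ^ 19 ≤ (x ^ 2 - x + 1) * phiThirty x * phiFortyTwo x := by
    refine le_trans (le_of_eq ?_) (mul_le_mul (mul_le_mul a1 b1 (by positivity)
      (hw0.le.trans a1)) c1 (by positivity) (mul_nonneg (hw0.le.trans a1)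
        ((pow_nonneg hw0.le 7).trans b1)))
    ring
  have hbound : (Z : ℤ) ≤ 2 * N * ((x ^ 2 - x + 1) * phiThirty x * phiFortyTwo x) ^ 2 := by
    refine le_trans (show (Z : ℤ) ≤ 2 * ((w : ℤ) ^ 35) ^ 2 by exact_mod_cast hZ') ?_
    refine le_trans (le_of_eq (by ring : 2 * ((w : ℤ) ^ 35) ^ 2 = 2 * w ^ 35 * w ^ 35)) ?_
    refine mul_le_mul (by linarith) ?_ (by positivity) (by positivity)
    refine (pow_le_pow_right₀ hw1 (show 35 ≤ 19 * 2 by norm_num)).trans ?_
    rw [pow_mul]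
    exact pow_le_pow_left₀ (by positivity) hprod 2
  have hZ0 : 0 < Z := by
    rw [← Nat.cast_pos (α := ℤ), hZ]
    linarith [sq_nonneg (2 * x ^ 35 - 1), show x ^ 70 = (x ^ 35) ^ 2 by ring]
  exact h.mul_four (a := x ^ 2 - x + 1) (d := phiTwoTen x) (lt_of_lt_of_le hw0 a1)
    (lt_of_lt_of_le (by positivity) b1) (lt_of_lt_of_le (by positivity) c1) hZ0
    (by rw [hZ, cyclotomic_split]) (by linarith) (by linarith) (by linarith) hbound

theorem isPractical_two_mul_three_pow (j : ℕ) : IsPractical (2 * 3 ^ j) := by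
  induction j with
  | zero => simpa using isPractical_two_pow 1
  | succ j ih =>
    rw [pow_succ, ← mul_assoc]
    exact ih.mul_le (by norm_num) (by have := Nat.one_le_pow j 3 (by norm_num); omega)

/-- **Melfi's sequence.** -/
theorem isPractical_three_pow_pm (k : ℕ) :
    IsPractical (2 * (3 ^ (70 * 3 ^ k) + 1)) ∧ IsPractical (2 * (3 ^ (70 * 3 ^ k) - 1)) := by
  induction k with
  | zero =>
    constructor
    · have h := (((((((((isPractical_two_pow 2).mul_le (k := 5) (by norm_num) (by norm_num)).mul_le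
        (k := 5) (by norm_num) (by norm_num)).mul_le (k := 29) (by norm_num) (by norm_num)).mul_le
        (k := 1181) (by norm_num) (by norm_num)).mul_le
        (k := 16493) (by norm_num) (by norm_num)).mul_le
        (k := 28596961) (by norm_num) (by norm_num)).mul_le
        (k := 32839661) (by norm_num) (by norm_num)).mul_le
        (k := 94373861) (by norm_num) (by norm_num))
      rwa [show 2 ^ 2 * 5 * 5 * 29 * 1181 * 16493 * 28596961 * 32839661 * 94373861 =
        2 * (3 ^ (70 * 3 ^ 0) + 1) by norm_num] at h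
    · have h := ((((((((isPractical_two_pow 4).mul_le (k := 11) (by norm_num) (by norm_num)).mul_le
        (k := 11) (by norm_num) (by norm_num)).mul_le (k := 61) (by norm_num) (by norm_num)).mul_le
        (k := 71) (by norm_num) (by norm_num)).mul_le (k := 547) (by norm_num) (by norm_num)).mul_le
        (k := 1093) (by norm_num) (by norm_num)).mul_le
        (k := 2664097031) (by norm_num) (by norm_num)).mul_le
        (k := 374857981681) (by norm_num) (by norm_num)
      rwa [show 2 ^ 4 * 11 * 11 * 61 * 71 * 547 * 1093 * 2664097031 * 374857981681 =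
        2 * (3 ^ (70 * 3 ^ 0) - 1) by norm_num] at h
  | succ k ih =>
    obtain ⟨w, hw⟩ : ∃ w, w = 9 ^ 3 ^ k := ⟨_, rfl⟩
    have hw9 : 9 ≤ w := hw ▸ Nat.le_self_pow (pow_ne_zero k (by norm_num)) 9
    have hz : 3 ^ (70 * 3 ^ k) = w ^ 35 := by
      rw [hw, show (9 : ℕ) = 3 ^ 2 from rfl, ← pow_mul, ← pow_mul]
      ring_nf
    have hz3 : 3 ^ (70 * 3 ^ (k + 1)) = (w ^ 35) ^ 3 := by
      rw [← hz, ← pow_mul]
      ring_nf
    obtain ⟨z, hzdef⟩ : ∃ z, z = w ^ 35 := ⟨_, rfl⟩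
    have hz2 : 2 ≤ z := hzdef ▸ le_trans (by omega) (Nat.le_self_pow (by norm_num) w)
    rw [hz, ← hzdef] at ih
    rw [hz3, ← hzdef]
    constructor
    · have h := step_exponent hw9 ih.1 (Z := z * (z - 1) + 1) (by rw [← hzdef]; omega)
        (x := w) (.inl rfl)
        (by
          push_cast [show 1 ≤ z by omega]
          rw [hzdef]
          push_cast
          ring)
        (by
          rw [← hzdef]
          have := Nat.mul_le_mul_left z (Nat.sub_le z 1)
          linarith [Nat.mul_le_mul hz2 hz2])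
      rwa [show 2 * (z + 1) * (z * (z - 1) + 1) = 2 * (z ^ 3 + 1) by
        obtain ⟨y, rfl⟩ := Nat.exists_eq_add_of_le (show 1 ≤ z by omega)
        rw [Nat.add_sub_cancel_left]
        ring] at h
    · have h := step_exponent hw9 ih.2 (Z := z * z + z + 1) (by rw [← hzdef]; omega)
        (x := -w) (.inr rfl)
        (by
          push_cast
          rw [hzdef]
          push_cast
          ring)
        (by
          rw [← hzdef]
          linarith [Nat.mul_le_mul_right z hz2])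
      rwa [show 2 * (z - 1) * (z * z + z + 1) = 2 * (z ^ 3 - 1) by
        obtain ⟨y, rfl⟩ := Nat.exists_eq_add_of_le (show 1 ≤ z by omega)
        rw [Nat.add_sub_cancel_left, show (1 + y) ^ 3 = y ^ 3 + 3 * y ^ 2 + 3 * y + 1 by ring,
          Nat.add_sub_cancel]
        ring] at h

/-- **Infinitely many triples.** -/
theorem infinite_triples :
    {n : ℕ | IsPractical (n - 2) ∧ IsPractical n ∧ IsPractical (n + 2)}.Infinite := by
  refine Set.infinite_of_injective_forall_mem (f := fun k : ℕ => 2 * 3 ^ (70 * 3 ^ k))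
    (fun a b h => ?_) fun k => ?_
  · exact Nat.pow_right_injective (by norm_num) (Nat.eq_of_mul_eq_mul_left (by norm_num)
      (Nat.pow_right_injective (by norm_num) (Nat.eq_of_mul_eq_mul_left two_pos h)))
  · obtain ⟨h1, h2⟩ := isPractical_three_pow_pm k
    rw [Nat.mul_sub, mul_one] at h2
    rw [mul_add, mul_one] at h1
    exact ⟨h2, isPractical_two_mul_three_pow _, h1⟩

end FA.Practical

end
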